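import Fermat.Agent.S24.Mod
import Fermat.Agent.S24.Count
import Fermat.Agent.S20.H872.Index

/-!
# S18 / node d2 — the degree `[F_{Np} : F_N] = p + 1` for a prime `p ∤ N` (helper847)

Input: row S24 (`nonempty_modularPackage`: `[F_N : ℚ̄(j)] = #(SL₂(ℤ)/Γ₀(N))`, `card_XX`: `= ψ(N)`)
and row S20 (`ψ(N p) = (p + 1) ψ(N)`), glued by the tower law for relative degrees of
intermediate fields of `ℚ̄((q))`.
-/

set_option autoImplicit false
set_option linter.style.haveILetI false

noncomputable section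

namespace Fermat.Agent.S18.H847

open ModularCurve AlgebraicCurve HahnSeries IntermediateField

/-- `ℚ̄(j) ⊆ ℚ̄((q))`. -/
def QbJ : IntermediateField (AlgebraicClosure ℚ) (LaurentSeries (AlgebraicClosure ℚ)) :=
  adjoin (AlgebraicClosure ℚ) {coeffEmb (AlgebraicClosure ℚ) jq}

theorem QbJ_le (N : ℕ) [NeZero N] : QbJ ≤ modularFunctionFieldBar N := by
  rw [QbJ, adjoin_le_iff]
  rintro x rfl
  exact (Fermat.Agent.S24.jF N).2

theorem relfinrank_QbJ (N : ℕ) [NeZero N] :
    QbJ.relfinrank (modularFunctionFieldBar N) = dedekindPsi N := by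
  obtain ⟨P⟩ := Fermat.Agent.S24.nonempty_modularPackage N
  have h1 := P.finrank_eq
  rw [Fermat.Agent.S24.card_XX] at h1
  have h2 := IntermediateField.finrank_comap (A := QbJ) (modularFunctionFieldBar N).val
  rw [IntermediateField.fieldRange_val] at h2
  have h3 : QbJ.comap (modularFunctionFieldBar N).val
      = adjoin (AlgebraicClosure ℚ) {Fermat.Agent.S24.jF N} := by
    have : (adjoin (AlgebraicClosure ℚ) {Fermat.Agent.S24.jF N}).map
        (modularFunctionFieldBar N).val = QbJ := by
      rw [IntermediateField.adjoin_map, Set.image_singleton]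
      rfl
    rw [← this, IntermediateField.comap_map]
  rw [h3] at h2
  rw [← h2]
  exact h1

theorem dedekindPsi_ne_zero_D2 (N : ℕ) [NeZero N] : dedekindPsi N ≠ 0 := by
  obtain ⟨P⟩ := Fermat.Agent.S24.nonempty_modularPackage N
  haveI := P.finiteDimensional
  have h1 := P.finrank_eq
  rw [Fermat.Agent.S24.card_XX] at h1
  rw [← h1]
  exact (Module.finrank_pos).ne'

/-- `[F_{N p} : F_N] = p + 1` for a prime `p ∤ N`. -/
theorem relfinrank_mul_prime (N p : ℕ) [NeZero N] (hp : p.Prime) (hpN : ¬ p ∣ N) :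
    (modularFunctionFieldBar N).relfinrank (modularFunctionFieldBar (N * p)) = p + 1 := by
  haveI : NeZero (N * p) := ⟨Nat.mul_ne_zero (NeZero.ne N) hp.ne_zero⟩
  have hle : modularFunctionFieldBar N ≤ modularFunctionFieldBar (N * p) :=
    IntermediateField.adjoin.mono _ _ _
      (Set.image_mono (full_degeneracy_le (Dvd.intro p rfl)))
  have h := relfinrank_mul_relfinrank (QbJ_le N) hle
  rw [relfinrank_QbJ N, relfinrank_QbJ (N * p),
    Fermat.Agent.S20.H872.dedekindPsi_mul_prime_of_not_dvd (NeZero.ne N) hp hpN,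
    mul_comm (p + 1)] at h
  exact Nat.eq_of_mul_eq_mul_left (Nat.pos_of_ne_zero (dedekindPsi_ne_zero_D2 N)) h

end Fermat.Agent.S18.H847
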