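import Fermat.Agent.S18.H847.D2Core
import Fermat.Agent.S18.H847.D2Deg
import Fermat.Prelude.Def_FLTPrelim_Ramification

/-!
# S18 / NODE D2 (helper847):  `CORE(levelM N ℓ) → CORE(N)`

Exact statement handed in (`node_d2_H847`), with the row's definitions (`Spec.lean`,
`Integ/Skeleton.lean`) replaced by verbatim, definitionally equal copies
(`CoreD2 = CoreStatement`, `levelMD2 = levelM`):

    theorem node_d2_H847 (N : ℕ) [NeZero N] {ℓ : ℕ} [Fact ℓ.Prime] (hℓN : ¬ ℓ ∣ N)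
        (A : ValuationSubring (AlgebraicClosure ℚ)) (hA : A.LiesOverPrime ℓ) (m : ℕ)
        (hm : ¬ ℓ ∣ m) : CoreD2 (levelMD2 N ℓ) A m → CoreD2 N A m

The adapter to the row's own names is `Fermat/Agent/S18/H847/D2Spec.lean` (`exact`/`Iff.rfl`).

Proof: `levelM N ℓ ∈ {N, 2N (ℓ = 3, N odd), 3N (ℓ = 2, 3 ∤ N)}`; `[F_{Np} : F_N] = p + 1 ∈ {3, 4}`
is a power of `ℓ`, hence prime to `m` (`D2Deg`, from rows S24 + S20); then `D2Core.coreD2_of_le`
(place restriction + norm descent).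
-/

set_option autoImplicit false
set_option linter.style.haveILetI false

noncomputable section

namespace Fermat.Agent.S18.H847

open ModularCurve AlgebraicCurve HahnSeries IntermediateField

/-- Copy of `Fermat.Agent.S18.Integ.levelM`. -/
def levelMD2 (N ℓ : ℕ) : ℕ := if ℓ = 3 then Nat.lcm N 2 else if ℓ = 2 then Nat.lcm N 3 else N

/-- `CORE(N p) → CORE(N)` for a prime `p ∤ N` with `p + 1` prime to `m`. -/
theorem coreD2_mul_prime (N p : ℕ) [NeZero N] (hp : p.Prime) (hpN : ¬ p ∣ N)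
    (A : ValuationSubring (AlgebraicClosure ℚ)) (m : ℕ) (hm : m ≠ 0)
    (hcop : Nat.Coprime (p + 1) m) : CoreD2 (N * p) A m → CoreD2 N A m := by
  haveI : NeZero (N * p) := ⟨Nat.mul_ne_zero (NeZero.ne N) hp.ne_zero⟩
  have hdvd : N ∣ N * p := Dvd.intro p rfl
  have hB : modularFunctionFieldBar N ≤ modularFunctionFieldBar (N * p) :=
    IntermediateField.adjoin.mono _ _ _ (Set.image_mono (full_degeneracy_le hdvd))
  have hdeg := relfinrank_mul_prime N p hp hpN
  refine coreD2_of_le N (N * p) A m hm hB (full_degeneracyC_le _ hdvd) ?_ ?_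
  · rw [hdeg]; exact Nat.succ_ne_zero p
  · rw [hdeg]; exact hcop

/-- **NODE D2.** -/
theorem node_d2_H847 (N : ℕ) [NeZero N] {ℓ : ℕ} [Fact ℓ.Prime] (_hℓN : ¬ ℓ ∣ N)
    (A : ValuationSubring (AlgebraicClosure ℚ)) (_hA : A.LiesOverPrime ℓ) (m : ℕ)
    (hm : ¬ ℓ ∣ m) : CoreD2 (levelMD2 N ℓ) A m → CoreD2 N A m := by
  have hm0 : m ≠ 0 := by
    rintro rfl
    exact hm (dvd_zero ℓ)
  unfold levelMD2
  split_ifs with h3 h2
  · -- ℓ = 3, M = lcm N 2
    subst h3
    by_cases h2N : 2 ∣ N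
    · rw [Nat.lcm_eq_left h2N]
      exact id
    · have hc : Nat.Coprime N 2 :=
        (Nat.coprime_comm.mp ((Nat.Prime.coprime_iff_not_dvd Nat.prime_two).mpr h2N))
      rw [hc.lcm_eq_mul]
      refine coreD2_mul_prime N 2 Nat.prime_two h2N A m hm0 ?_
      exact (Nat.Prime.coprime_iff_not_dvd Nat.prime_three).mpr hm
  · -- ℓ = 2, M = lcm N 3
    subst h2
    by_cases h3N : 3 ∣ N
    · rw [Nat.lcm_eq_left h3N]
      exact id
    · have hc : Nat.Coprime N 3 :=
        (Nat.coprime_comm.mp ((Nat.Prime.coprime_iff_not_dvd Nat.prime_three).mpr h3N))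
      rw [hc.lcm_eq_mul]
      refine coreD2_mul_prime N 3 Nat.prime_three h3N A m hm0 ?_
      have h2m : Nat.Coprime 2 m := (Nat.Prime.coprime_iff_not_dvd Nat.prime_two).mpr hm
      exact Nat.Coprime.pow_left 2 h2m
  · exact id

end Fermat.Agent.S18.H847
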