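import Mathlib

/-!
# S18 / node d2 — norm (Kummer) descent, pure field theory (helper847)

`F₁ ≤ F₂` intermediate fields of `E/K`, `[F₂ : F₁]` prime to `m`.  If `f ∈ F₁` is of the form
`c · y ^ m` with `c ∈ K`, `y ∈ F₂`, then it is of the form `c' · z ^ m` with `c' ∈ K`, `z ∈ F₁`.

Proof: apply the norm `N = N_{F₂/F₁}`:  `f ^ d = c ^ d · N(y) ^ m`; with `a d + b m = 1`,
`f = (c ^ d) ^ a · (N(y) ^ a · f ^ b) ^ m`.
-/

set_option autoImplicit false

namespace Fermat.Agent.S18.H847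

open IntermediateField

theorem norm_descent {K E : Type*} [Field K] [Field E] [Algebra K E]
    (F₁ F₂ : IntermediateField K E) (h : F₁ ≤ F₂) (m : ℕ)
    (hcop : Nat.Coprime (F₁.relfinrank F₂) m)
    (f : E) (hf : f ∈ F₁) (hf0 : f ≠ 0) (c : K) (y : E) (hy : y ∈ F₂)
    (hfy : f = algebraMap K E c * y ^ m) :
    ∃ (c' : K) (z : E), z ∈ F₁ ∧ f = algebraMap K E c' * z ^ m := by
  classical
  set d := F₁.relfinrank F₂ with hd
  have hd' : d = Module.finrank F₁ (extendScalars h) := relfinrank_eq_finrank_of_le h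
  -- the norm identity in `F₁`
  obtain ⟨n, hn, key⟩ : ∃ n : E, n ∈ F₁ ∧ f ^ d = algebraMap K E c ^ d * n ^ m := by
    have h1 : algebraMap F₁ (extendScalars h) ⟨f, hf⟩
        = algebraMap F₁ (extendScalars h) (algebraMap K F₁ c) * (⟨y, hy⟩ : extendScalars h) ^ m := by
      apply Subtype.ext
      exact hfy
    have h2 := congrArg (Algebra.norm F₁) h1
    rw [Algebra.norm_algebraMap, map_mul, Algebra.norm_algebraMap, map_pow, ← hd'] at h2
    refine ⟨(Algebra.norm F₁ (⟨y, hy⟩ : extendScalars h) : F₁), SetLike.coe_mem _, ?_⟩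
    have h3 := congrArg (Subtype.val : F₁ → E) h2
    simpa using h3
  -- Bezout
  obtain ⟨a, b, hab⟩ : ∃ a b : ℤ, a * d + b * m = 1 := by
    have := (Nat.isCoprime_iff_coprime (m := d) (n := m)).mpr hcop
    obtain ⟨a, b, hab⟩ := this
    exact ⟨a, b, hab⟩
  refine ⟨(c ^ d) ^ a, n ^ a * f ^ b, mul_mem (zpow_mem hn a) (zpow_mem hf b), ?_⟩
  have e1 : f = (f ^ d) ^ a * (f ^ m) ^ b := by
    rw [← zpow_natCast f d, ← zpow_natCast f m, ← zpow_mul, ← zpow_mul, ← zpow_add₀ hf0,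
      mul_comm (d : ℤ) a, mul_comm (m : ℤ) b, hab, zpow_one]
  have e2 : (n ^ a * f ^ b) ^ m = (n ^ m) ^ a * (f ^ m) ^ b := by
    rw [mul_pow, ← zpow_natCast (n ^ a) m, ← zpow_natCast (f ^ b) m, ← zpow_mul, ← zpow_mul,
      ← zpow_natCast n m, ← zpow_natCast f m, ← zpow_mul, ← zpow_mul, mul_comm a (m : ℤ),
      mul_comm b (m : ℤ)]
  rw [e2, map_zpow₀, map_pow, ← mul_assoc, ← mul_zpow, ← key]
  exact e1

end Fermat.Agent.S18.H847
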