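import Mathlib
import Fermat.Prelude.Def_ModularCurve_ReductionModL
import Fermat.Prelude.Def_AlgebraicCurve_DivisorPushPull
import Fermat.Agent.S18.H847.D2Norm

/-!
# S18 / node d2 — transfer of CORE from level `M` to level `N` (helper847)

`F_N ≤ F_M` (function fields of `X₀(N)`, `X₀(M)` over `ℚ̄`), `[F_M : F_N]` finite and prime to `m`
⟹ `CORE(M, A, m) → CORE(N, A, m)`.

* integrality of series passes from `N` to `M` (`F_N ≤ F_M`, `F_{N,k} ≤ F_{M,k}`);
* a place `w` of `F_M` restricts to a place `v` of `F_N` with `ord_w = e · ord_v` on `F_N`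
  (Prelude: `Place.restrict`, `Place.ord_restrict`);
* Kummer/norm descent `D2Norm.norm_descent`.

`IsIntD2`, `toFD2`, `CoreD2` are verbatim copies of `IsInt`, `toF`, `CoreStatement` of the row's
`Fermat/Agent/S18/Spec.lean` (definitionally equal; the adapter is `Iff.rfl`).
-/

set_option autoImplicit false
set_option linter.style.haveILetI false

noncomputable section

namespace Fermat.Agent.S18.H847

open ModularCurve AlgebraicCurve HahnSeries IntermediateField

/-- Copy of `Fermat.Agent.S18.IsInt`. -/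
def IsIntD2 (A : ValuationSubring (AlgebraicClosure ℚ)) (N : ℕ) (U : LaurentSeries A) : Prop :=
  coeffMap A.subtype U ∈ modularFunctionFieldBar N ∧
    coeffMap (IsLocalRing.residue A) U ∈
      modularFunctionFieldFullC (IsLocalRing.ResidueField A) N ∧
    coeffMap (IsLocalRing.residue A) U ≠ 0

/-- Copy of `Fermat.Agent.S18.toF`. -/
def toFD2 {A : ValuationSubring (AlgebraicClosure ℚ)} {N : ℕ} {U : LaurentSeries A}
    (hU : IsIntD2 A N U) : modularFunctionFieldBar N :=
  ⟨coeffMap A.subtype U, hU.1⟩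

/-- Copy of `Fermat.Agent.S18.CoreStatement`. -/
def CoreD2 (N : ℕ) (A : ValuationSubring (AlgebraicClosure ℚ)) (m : ℕ) : Prop :=
  ∀ (U₁ U₂ : LaurentSeries A) (h₁ : IsIntD2 A N U₁) (h₂ : IsIntD2 A N U₂),
    coeffMap (IsLocalRing.residue A) U₁ = coeffMap (IsLocalRing.residue A) U₂ →
    (∀ v : Place (AlgebraicClosure ℚ) (modularFunctionFieldBar N),
      (m : ℤ) ∣ v.ord (toFD2 h₁) - v.ord (toFD2 h₂)) →
    ∃ (c : AlgebraicClosure ℚ) (y : modularFunctionFieldBar N), c ≠ 0 ∧ y ≠ 0 ∧
      toFD2 h₁ = algebraMap (AlgebraicClosure ℚ) (modularFunctionFieldBar N) c * y ^ m * toFD2 h₂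

theorem coeffMap_subtype_ne_zero {A : ValuationSubring (AlgebraicClosure ℚ)}
    {U : LaurentSeries A} (hU : coeffMap (IsLocalRing.residue A) U ≠ 0) :
    coeffMap A.subtype U ≠ 0 := by
  intro h0
  apply hU
  ext k
  have hk : (coeffMap A.subtype U).coeff k = 0 := by rw [h0]; rfl
  rw [coeffMap_coeff] at hk
  have hk' : U.coeff k = 0 := Subtype.ext (by simpa using hk)
  rw [coeffMap_coeff, hk', map_zero]
  rfl

/-- Integrality over `F₁` of the bigger field, for the inclusion algebra structure. -/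
theorem isIntegral_inclusion {K E : Type*} [Field K] [Field E] [Algebra K E]
    {F₁ F₂ : IntermediateField K E} (h : F₁ ≤ F₂) (hfin : F₁.relfinrank F₂ ≠ 0) :
    letI : Algebra F₁ F₂ := (IntermediateField.inclusion h).toRingHom.toAlgebra
    Algebra.IsIntegral F₁ F₂ := by
  letI : Algebra F₁ F₂ := (IntermediateField.inclusion h).toRingHom.toAlgebra
  have hpos : 0 < Module.finrank F₁ (extendScalars h) := by
    rw [← relfinrank_eq_finrank_of_le h]; exact Nat.pos_of_ne_zero hfin
  haveI : Module.Finite F₁ (extendScalars h) := Module.finite_of_finrank_pos hpos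
  constructor
  intro x
  have hx : IsIntegral F₁ (⟨x.1, x.2⟩ : extendScalars h) := Algebra.IsIntegral.isIntegral _
  have hxE : IsIntegral F₁ (x.1 : E) :=
    (isIntegral_algHom_iff (extendScalars h).val Subtype.val_injective).mpr hx
  let φ : F₂ →ₐ[F₁] E :=
    { toRingHom := F₂.val.toRingHom
      commutes' := fun _ => rfl }
  exact (isIntegral_algHom_iff φ Subtype.val_injective).mp hxE

/-- **d2, abstract form.** -/
theorem coreD2_of_le (N M : ℕ) (A : ValuationSubring (AlgebraicClosure ℚ)) (m : ℕ) (hm : m ≠ 0)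
    (hB : modularFunctionFieldBar N ≤ modularFunctionFieldBar M)
    (hk : modularFunctionFieldFullC (IsLocalRing.ResidueField A) N
      ≤ modularFunctionFieldFullC (IsLocalRing.ResidueField A) M)
    (hfin : (modularFunctionFieldBar N).relfinrank (modularFunctionFieldBar M) ≠ 0)
    (hcop : Nat.Coprime ((modularFunctionFieldBar N).relfinrank (modularFunctionFieldBar M)) m) :
    CoreD2 M A m → CoreD2 N A m := by
  intro hM U₁ U₂ h₁ h₂ hred hdiv
  have h₁' : IsIntD2 A M U₁ := ⟨hB h₁.1, hk h₁.2.1, h₁.2.2⟩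
  have h₂' : IsIntD2 A M U₂ := ⟨hB h₂.1, hk h₂.2.1, h₂.2.2⟩
  letI alg : Algebra (modularFunctionFieldBar N) (modularFunctionFieldBar M) :=
    (IntermediateField.inclusion hB).toRingHom.toAlgebra
  haveI : IsScalarTower (AlgebraicClosure ℚ) (modularFunctionFieldBar N)
      (modularFunctionFieldBar M) := IsScalarTower.of_algebraMap_eq (fun a => rfl)
  haveI : Algebra.IsIntegral (modularFunctionFieldBar N) (modularFunctionFieldBar M) :=
    isIntegral_inclusion hB hfin
  obtain ⟨c, y, hc, hy, hcy⟩ := hM U₁ U₂ h₁' h₂' hred (fun w => by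
    have e1 : toFD2 h₁' = algebraMap (modularFunctionFieldBar N) (modularFunctionFieldBar M)
        (toFD2 h₁) := rfl
    have e2 : toFD2 h₂' = algebraMap (modularFunctionFieldBar N) (modularFunctionFieldBar M)
        (toFD2 h₂) := rfl
    rw [e1, e2, w.ord_restrict, w.ord_restrict, ← mul_sub]
    exact Dvd.dvd.mul_left (hdiv (w.restrict (modularFunctionFieldBar N))) _)
  -- pass to the ambient field
  have hu₁ : coeffMap A.subtype U₁ ≠ 0 := coeffMap_subtype_ne_zero h₁.2.2
  have hu₂ : coeffMap A.subtype U₂ ≠ 0 := coeffMap_subtype_ne_zero h₂.2.2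
  have hE : coeffMap A.subtype U₁
      = algebraMap (AlgebraicClosure ℚ) (LaurentSeries (AlgebraicClosure ℚ)) c
        * (y : LaurentSeries (AlgebraicClosure ℚ)) ^ m * coeffMap A.subtype U₂ :=
    congrArg Subtype.val hcy
  have hf : coeffMap A.subtype U₁ / coeffMap A.subtype U₂ ∈ modularFunctionFieldBar N :=
    div_mem h₁.1 h₂.1
  have hf0 : coeffMap A.subtype U₁ / coeffMap A.subtype U₂ ≠ 0 := div_ne_zero hu₁ hu₂
  have hfy : coeffMap A.subtype U₁ / coeffMap A.subtype U₂
      = algebraMap (AlgebraicClosure ℚ) (LaurentSeries (AlgebraicClosure ℚ)) c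
        * (y : LaurentSeries (AlgebraicClosure ℚ)) ^ m := by
    rw [hE, mul_div_assoc, div_self hu₂, mul_one]
  obtain ⟨c', z, hz, hfz⟩ := norm_descent (modularFunctionFieldBar N) (modularFunctionFieldBar M)
    hB m hcop _ hf hf0 c (y : LaurentSeries (AlgebraicClosure ℚ)) y.2 hfy
  have hc' : c' ≠ 0 := by
    rintro rfl
    rw [map_zero, zero_mul] at hfz
    exact hf0 hfz
  have hz0 : z ≠ 0 := by
    rintro rfl
    rw [zero_pow hm, mul_zero] at hfz
    exact hf0 hfz
  refine ⟨c', ⟨z, hz⟩, hc', fun h => hz0 (congrArg Subtype.val h), Subtype.ext ?_⟩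
  show coeffMap A.subtype U₁
      = algebraMap (AlgebraicClosure ℚ) (LaurentSeries (AlgebraicClosure ℚ)) c' * z ^ m
        * coeffMap A.subtype U₂
  rw [← hfz, div_mul_cancel₀ _ hu₂]

end Fermat.Agent.S18.H847
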