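import Fermat.Agent.S18.Spec
import Fermat.Agent.S18.H847.D2

/-!
# S18 / NODE D2 in the row's own vocabulary (helper847)

`node_d2_spec` is the statement of `Integ/Skeleton.lean`'s `node_d2`, with `levelM N ℓ` unfolded
(`levelM` lives in the skeleton file, which is not imported here).
-/

set_option autoImplicit false

namespace Fermat.Agent.S18.H847

theorem coreD2_iff (N : ℕ) (A : ValuationSubring (AlgebraicClosure ℚ)) (m : ℕ) :
    CoreD2 N A m ↔ Fermat.Agent.S18.CoreStatement N A m := Iff.rfl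

/-- **NODE D2**, frozen form. -/
theorem node_d2_spec (N : ℕ) [NeZero N] {ℓ : ℕ} [Fact ℓ.Prime] (hℓN : ¬ ℓ ∣ N)
    (A : ValuationSubring Fermat.Agent.S18.Qb) (hA : A.LiesOverPrime ℓ) (m : ℕ) (hm : ¬ ℓ ∣ m) :
    Fermat.Agent.S18.CoreStatement
        (if ℓ = 3 then Nat.lcm N 2 else if ℓ = 2 then Nat.lcm N 3 else N) A m →
      Fermat.Agent.S18.CoreStatement N A m :=
  node_d2_H847 N hℓN A hA m hm

end Fermat.Agent.S18.H847
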